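import Fermat.Agent.S24_helper88.PermGenus

/-!
# `genusFormula N ∈ ℕ` for the action of `SL(2,ℤ)` on `SL(2,ℤ) ⧸ Γ₀(N)` (helper88, T24)

Instantiation of `PermGenus.exists_nat_eq_genusFormula` with `G = SL(2,ℤ)`, `s = S`, `t = T`,
`X = SL(2,ℤ) ⧸ Gamma0 N` (left multiplication action).  The four coset counts stay hypotheses.
-/

set_option autoImplicit false

namespace Fermat.Agent.S24_helper88

open MulAction ModularGroup CongruenceSubgroup
open scoped MatrixGroups

theorem S_mul_S : (S * S : SL(2,ℤ)) = -1 := by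
  ext i j
  simp only [Matrix.SpecialLinearGroup.coe_mul, coe_S, Matrix.SpecialLinearGroup.coe_neg,
    Matrix.SpecialLinearGroup.coe_one]
  fin_cases i <;> fin_cases j <;> simp [Matrix.mul_apply, Fin.sum_univ_two]

theorem ST_cube : ((S * T) * (S * T) * (S * T) : SL(2,ℤ)) = -1 := by
  ext i j
  simp only [Matrix.SpecialLinearGroup.coe_mul, coe_S, coe_T, Matrix.SpecialLinearGroup.coe_neg,
    Matrix.SpecialLinearGroup.coe_one]
  fin_cases i <;> fin_cases j <;> simp [Matrix.mul_apply, Fin.sum_univ_two]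

theorem neg_one_mem_Gamma0 (N : ℕ) : (-1 : SL(2,ℤ)) ∈ Gamma0 N := by
  rw [Gamma0_mem]
  simp

/-- `-1` acts trivially on `SL(2,ℤ) ⧸ Γ₀(N)`. -/
theorem neg_one_smul_coset (N : ℕ) (x : SL(2,ℤ) ⧸ Gamma0 N) : (-1 : SL(2,ℤ)) • x = x := by
  induction x using QuotientGroup.induction_on with
  | H g =>
    rw [MulAction.Quotient.smul_coe, QuotientGroup.eq]
    have : ((-1 : SL(2,ℤ)) • g)⁻¹ * g = -1 := by
      rw [smul_eq_mul]
      have h1 : (-1 : SL(2,ℤ)) * g = -g := by simp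
      rw [h1]
      have h2 : (-g)⁻¹ = -(g⁻¹) := by
        rw [inv_eq_iff_eq_inv, inv_eq_of_mul_eq_one_right]
        simp
      rw [h2]
      simp
    rw [this]
    exact neg_one_mem_Gamma0 N

theorem S_smul_S_smul_coset (N : ℕ) (x : SL(2,ℤ) ⧸ Gamma0 N) : S • S • x = x := by
  rw [← mul_smul, S_mul_S, neg_one_smul_coset]

theorem ST_cube_smul_coset (N : ℕ) (x : SL(2,ℤ) ⧸ Gamma0 N) :
    (S * T) • (S * T) • (S * T) • x = x := by
  rw [← mul_smul, ← mul_smul, ST_cube, neg_one_smul_coset]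

/-- **`genusFormula N` is a natural number**, given the four coset counts
(index `= ψ(N)`, `#Fix S = ν₂`, `#Fix (S T) = ν₃`, `#⟨T⟩`-orbits `= #cusps`). -/
theorem exists_nat_eq_genusFormula_Gamma0 (N : ℕ) [NeZero N]
    (h0 : Nat.card (SL(2,ℤ) ⧸ Gamma0 N) = ModularCurve.dedekindPsi N)
    (h2 : Nat.card (MulAction.fixedBy (SL(2,ℤ) ⧸ Gamma0 N) S) = ModularCurve.nuTwo N)
    (h3 : Nat.card (MulAction.fixedBy (SL(2,ℤ) ⧸ Gamma0 N) (S * T)) = ModularCurve.nuThree N)
    (hinf : Nat.card (orbitRel.Quotient (Subgroup.zpowers T) (SL(2,ℤ) ⧸ Gamma0 N))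
      = ModularCurve.cuspCount N) :
    ∃ g : ℕ, (g : ℚ) = ModularCurve.genusFormula N := by
  classical
  have : Fintype (SL(2,ℤ) ⧸ Gamma0 N) := Fintype.ofFinite _
  exact exists_nat_eq_genusFormula (G := SL(2,ℤ)) (X := SL(2,ℤ) ⧸ Gamma0 N) S T
    SpecialLinearGroup.SL2Z_generators (S_smul_S_smul_coset N) (ST_cube_smul_coset N) N h0 h2 h3 hinf

/-- Consequence in the shape used by the prelude's `AlgebraicCurve.genus`:
if an integer `d` satisfies `(d : ℚ) = 2 * genusFormula N - 2` then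
`(((d + 2).toNat / 2 : ℕ) : ℚ) = genusFormula N`. -/
theorem toNat_div_two_eq_genusFormula (N : ℕ)
    (hnat : ∃ g : ℕ, (g : ℚ) = ModularCurve.genusFormula N)
    (d : ℤ) (hd : (d : ℚ) = 2 * ModularCurve.genusFormula N - 2) :
    (((d + 2).toNat / 2 : ℕ) : ℚ) = ModularCurve.genusFormula N := by
  obtain ⟨g, hg⟩ := hnat
  rw [← hg] at hd ⊢
  have hd' : d = 2 * (g : ℤ) - 2 := by
    have : (d : ℚ) = ((2 * (g : ℤ) - 2 : ℤ) : ℚ) := by push_cast; linarith
    exact_mod_cast this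
  have : (d + 2).toNat = 2 * g := by
    rw [hd']; omega
  rw [this, Nat.mul_div_cancel_left g (by norm_num)]

end Fermat.Agent.S24_helper88
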