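import Mathlib
import Fermat.Prelude.Def_ModularCurve_GenusNumerics

/-!
# `genusFormula N` is a natural number (helper88, T24 module COMB-PARITY+SCOTT)

Pure finite permutation theory (Mathlib only, plus the prelude's numerics for the last corollary).

* `card_orbQ` : `#orbits ⟨σ⟩ + Σ cycle lengths = n + #cycles`.
* `sign_eq_neg_one_pow` : `sign σ = (-1) ^ (n + #orbits ⟨σ⟩)`.
* `scott_core`, `scott_perm` : Scott's lemma / Ree's theorem: three permutations with product
  one generating a transitive group have at most `n + 2` cycles in total.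
* `exists_genus_perm` : under the same hypotheses `Σ #orbits + 2 g = n + 2` for a natural `g`.
* `exists_genus_of_action` : the `1 + n/12 - ν₂/4 - ν₃/3 - c/2` shape for a group action.
* `exists_nat_eq_genusFormula` : the prelude shape.
-/

set_option autoImplicit false

namespace Fermat.Agent.S24_helper88

open Equiv Equiv.Perm MulAction Module

section PermOrbits

variable {X : Type*}

/-- the orbit relation of `⟨σ⟩` is `SameCycle`. -/
theorem orbitRel_zpowers_iff (σ : Perm X) (x y : X) :
    (orbitRel (Subgroup.zpowers σ) X) x y ↔ SameCycle σ y x := by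
  rw [orbitRel_apply, mem_orbit_iff]
  constructor
  · rintro ⟨⟨g, hg⟩, rfl⟩
    obtain ⟨i, rfl⟩ := Subgroup.mem_zpowers_iff.mp hg
    exact ⟨i, rfl⟩
  · rintro ⟨i, hi⟩
    exact ⟨⟨σ ^ i, Subgroup.zpow_mem_zpowers σ i⟩, hi⟩

/-- The orbit space of the cyclic group generated by a permutation. -/
abbrev OrbQ (σ : Perm X) : Type _ := orbitRel.Quotient (Subgroup.zpowers σ) X

theorem orbQ_mk_eq_iff (σ : Perm X) (x y : X) :
    (Quotient.mk'' x : OrbQ σ) = Quotient.mk'' y ↔ SameCycle σ x y := by
  rw [Quotient.eq'']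
  show (orbitRel (Subgroup.zpowers σ) X) x y ↔ _
  rw [orbitRel_zpowers_iff]
  exact ⟨fun h => h.symm, fun h => h.symm⟩

variable [Fintype X] [DecidableEq X]

/-- a point in the support of a cycle factor -/
noncomputable def cyclePt (σ : Perm X) (c : σ.cycleFactorsFinset) : X :=
  ((mem_cycleFactorsFinset_iff.mp c.2).1.nonempty_support).choose

theorem cyclePt_mem (σ : Perm X) (c : σ.cycleFactorsFinset) :
    cyclePt σ c ∈ (c : Perm X).support :=
  ((mem_cycleFactorsFinset_iff.mp c.2).1.nonempty_support).choose_spec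

theorem cyclePt_cycleOf (σ : Perm X) (c : σ.cycleFactorsFinset) :
    σ.cycleOf (cyclePt σ c) = c :=
  (cycle_is_cycleOf (cyclePt_mem σ c) c.2).symm

theorem cyclePt_mem_support (σ : Perm X) (c : σ.cycleFactorsFinset) :
    cyclePt σ c ∈ σ.support :=
  mem_cycleFactorsFinset_support_le c.2 (cyclePt_mem σ c)

/-- orbits of `⟨σ⟩` = cycle factors ⊔ fixed points -/
noncomputable def orbMap (σ : Perm X) :
    (σ.cycleFactorsFinset ⊕ Function.fixedPoints σ) → OrbQ σ
  | Sum.inl c => Quotient.mk'' (cyclePt σ c)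
  | Sum.inr x => Quotient.mk'' (x : X)

theorem orbMap_bijective (σ : Perm X) : Function.Bijective (orbMap σ) := by
  constructor
  · rintro (c | x) (c' | x') h
    · simp only [orbMap] at h
      rw [orbQ_mk_eq_iff] at h
      have := h.cycleOf_eq
      rw [cyclePt_cycleOf, cyclePt_cycleOf] at this
      exact congrArg Sum.inl (Subtype.ext this)
    · exfalso
      simp only [orbMap] at h
      rw [orbQ_mk_eq_iff] at h
      have h1 := cyclePt_mem_support σ c
      rw [mem_support] at h1
      obtain ⟨i, hi⟩ := h.symm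
      have hx : σ (x' : X) = x' := x'.2
      have : (σ ^ i) (x' : X) = x' := by
        have : Function.IsFixedPt (σ ^ i) (x' : X) := by
          exact zpow_apply_eq_self_of_apply_eq_self hx i
        exact this
      rw [this] at hi
      apply h1
      rw [← hi]; exact hx
    · exfalso
      simp only [orbMap] at h
      rw [orbQ_mk_eq_iff] at h
      have h1 := cyclePt_mem_support σ c'
      rw [mem_support] at h1
      obtain ⟨i, hi⟩ := h
      have hx : σ (x : X) = x := x.2
      have : (σ ^ i) (x : X) = x := zpow_apply_eq_self_of_apply_eq_self hx i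
      rw [this] at hi
      apply h1
      rw [← hi]; exact hx
    · simp only [orbMap] at h
      rw [orbQ_mk_eq_iff] at h
      obtain ⟨i, hi⟩ := h
      have hx : σ (x : X) = x := x.2
      have : (σ ^ i) (x : X) = x := zpow_apply_eq_self_of_apply_eq_self hx i
      rw [this] at hi
      exact congrArg Sum.inr (Subtype.ext hi)
  · intro q
    induction q using Quotient.inductionOn' with
    | h x =>
      by_cases hx : σ x = x
      · exact ⟨Sum.inr ⟨x, hx⟩, rfl⟩
      · have hx' : x ∈ σ.support := mem_support.mpr hx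
        have hc : σ.cycleOf x ∈ σ.cycleFactorsFinset := cycleOf_mem_cycleFactorsFinset_iff.mpr hx'
        refine ⟨Sum.inl ⟨σ.cycleOf x, hc⟩, ?_⟩
        simp only [orbMap]
        rw [orbQ_mk_eq_iff]
        have := cyclePt_mem σ ⟨σ.cycleOf x, hc⟩
        simp only at this
        rw [mem_support_cycleOf_iff] at this
        exact this.1.symm

theorem card_orbQ (σ : Perm X) :
    Nat.card (OrbQ σ) + σ.cycleType.sum = Fintype.card X + Multiset.card σ.cycleType := by
  classical
  have h1 : Nat.card (OrbQ σ) = Nat.card (σ.cycleFactorsFinset ⊕ Function.fixedPoints σ) :=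
    (Nat.card_congr (Equiv.ofBijective _ (orbMap_bijective σ))).symm
  rw [h1, Nat.card_sum, Nat.card_eq_fintype_card, Nat.card_eq_fintype_card, card_fixedPoints,
    Fintype.card_coe]
  have h2 : σ.cycleType.sum ≤ Fintype.card X := sum_cycleType_le σ
  have h3 : Multiset.card σ.cycleType = σ.cycleFactorsFinset.card := by
    rw [cycleType_def]; simp
  omega

end PermOrbits

section AbstractScott

variable {k V : Type*} [Field k] [AddCommGroup V] [Module k V] [FiniteDimensional k V]

/-- core of Scott's lemma with opaque `Rᵢ = 1 - Bᵢ`. -/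
theorem scott_core (B₁ B₂ B₃ R₁ R₂ R₃ : V →ₗ[k] V)
    (h123 : ∀ v, B₁ (B₂ (B₃ v)) = v)
    (hR₁ : ∀ v, R₁ v = v - B₁ v) (hR₂ : ∀ v, R₂ v = v - B₂ v) (hR₃ : ∀ v, R₃ v = v - B₃ v) :
    finrank k V
      + finrank k ↥(LinearMap.range R₁ ⊔ LinearMap.range R₂ ⊔ LinearMap.range R₃)
      ≤ finrank k ↥(LinearMap.range R₁) + finrank k ↥(LinearMap.range R₂)
        + finrank k ↥(LinearMap.range R₃)
        + finrank k ↥(LinearMap.ker R₁ ⊓ LinearMap.ker R₂ ⊓ LinearMap.ker R₃) := by
  obtain ⟨β, hβ⟩ : ∃ β : V →ₗ[k]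
      (↥(LinearMap.range R₁) × ↥(LinearMap.range R₂) × ↥(LinearMap.range R₃)),
      ∀ v, β v = (⟨R₁ v, v, rfl⟩, ⟨R₂ v, v, rfl⟩, ⟨R₃ v, v, rfl⟩) :=
    ⟨R₁.rangeRestrict.prod (R₂.rangeRestrict.prod R₃.rangeRestrict), fun v => rfl⟩
  obtain ⟨δ, hδ⟩ : ∃ δ : (↥(LinearMap.range R₁) × ↥(LinearMap.range R₂) × ↥(LinearMap.range R₃))
      →ₗ[k] V, ∀ w, δ w = (w.1 : V) + (B₁ (w.2.1 : V) + B₁ (B₂ (w.2.2 : V))) :=
    ⟨(LinearMap.range R₁).subtype.coprod
      ((B₁ ∘ₗ (LinearMap.range R₂).subtype).coprod ((B₁ ∘ₗ B₂) ∘ₗ (LinearMap.range R₃).subtype)),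
      fun w => by simp [LinearMap.coprod_apply]⟩
  have hle : LinearMap.range β ≤ LinearMap.ker δ := by
    rintro _ ⟨v, rfl⟩
    rw [LinearMap.mem_ker, hδ, hβ]
    simp only [hR₁, hR₂, hR₃, map_sub, h123]
    abel
  have hkerβ : LinearMap.ker β = LinearMap.ker R₁ ⊓ LinearMap.ker R₂ ⊓ LinearMap.ker R₃ := by
    ext v
    simp only [LinearMap.mem_ker, Submodule.mem_inf, hβ, Prod.mk_eq_zero, and_assoc]
    simp only [← Subtype.coe_inj, ZeroMemClass.coe_zero]
  have hU : LinearMap.range R₁ ⊔ LinearMap.range R₂ ⊔ LinearMap.range R₃ ≤ LinearMap.range δ := by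
    refine sup_le (sup_le ?_ ?_) ?_
    · rintro _ ⟨v, rfl⟩
      refine ⟨(⟨R₁ v, v, rfl⟩, 0, 0), ?_⟩
      rw [hδ]; simp
    · rintro _ ⟨v, rfl⟩
      refine ⟨(⟨R₁ (R₂ v), _, rfl⟩, ⟨R₂ v, v, rfl⟩, 0), ?_⟩
      rw [hδ]; simp only [hR₁, ZeroMemClass.coe_zero, map_zero, add_zero]; abel
    · rintro _ ⟨v, rfl⟩
      refine ⟨(⟨R₁ (R₃ v), _, rfl⟩, ⟨R₂ (R₃ v), _, rfl⟩, ⟨R₃ v, v, rfl⟩), ?_⟩
      rw [hδ]; simp only [hR₁, hR₂, map_sub]; abel
  have e1 := LinearMap.finrank_range_add_finrank_ker β
  have e2 := LinearMap.finrank_range_add_finrank_ker δ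
  have e3 : finrank k (↥(LinearMap.range R₁) × ↥(LinearMap.range R₂) × ↥(LinearMap.range R₃))
      = finrank k ↥(LinearMap.range R₁) + finrank k ↥(LinearMap.range R₂)
      + finrank k ↥(LinearMap.range R₃) := by
    simp only [Module.finrank_prod]; ring
  have e4 := Submodule.finrank_mono hle
  have e5 := Submodule.finrank_mono hU
  rw [hkerβ] at e1
  omega

end AbstractScott

section PermScott

variable {X : Type*} [Fintype X] [DecidableEq X] (k : Type*) [Field k]

/-- the operator `f ↦ f ∘ g` on `X → k` -/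
noncomputable def opA (g : Perm X) : (X → k) →ₗ[k] (X → k) := LinearMap.funLeft k k g

omit [Fintype X] [DecidableEq X] in
@[simp] theorem opA_apply (g : Perm X) (f : X → k) (x : X) : opA k g f x = f (g x) := rfl

/-- `1 - A_g` -/
noncomputable def opR (g : Perm X) : (X → k) →ₗ[k] (X → k) := LinearMap.id - opA k g

omit [Fintype X] [DecidableEq X] in
theorem opR_apply (g : Perm X) (f : X → k) : opR k g f = f - opA k g f := rfl

omit [Fintype X] [DecidableEq X] in
theorem mem_ker_opR (g : Perm X) (f : X → k) :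
    f ∈ LinearMap.ker (opR k g) ↔ ∀ x, f (g x) = f x := by
  rw [LinearMap.mem_ker, opR_apply, sub_eq_zero, funext_iff]
  simp only [opA_apply]
  exact ⟨fun h x => (h x).symm, fun h x => (h x).symm⟩

omit [DecidableEq X] in
theorem finrank_ker_opR (g : Perm X) :
    finrank k ↥(LinearMap.ker (opR k g)) = Nat.card (OrbQ g) := by
  classical
  have : Fintype (OrbQ g) := Fintype.ofFinite _
  let Ψ : (OrbQ g → k) →ₗ[k] (X → k) := LinearMap.funLeft k k (Quotient.mk'' : X → OrbQ g)
  have hΨinj : Function.Injective Ψ :=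
    LinearMap.funLeft_injective_of_surjective k k _ Quotient.mk''_surjective
  have hrange : LinearMap.range Ψ = LinearMap.ker (opR k g) := by
    ext f
    rw [mem_ker_opR]
    constructor
    · rintro ⟨h, rfl⟩ x
      show h (Quotient.mk'' (g x)) = h (Quotient.mk'' x)
      congr 1
      rw [orbQ_mk_eq_iff]
      exact ⟨-1, by simp⟩
    · intro hf
      have hf' : ∀ (n : ℕ) x, f ((g ^ n) x) = f x := by
        intro n
        induction n with
        | zero => intro x; simp
        | succ n ih => intro x; rw [pow_succ', Perm.mul_apply, hf, ih]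
      refine ⟨Quotient.lift f ?_, ?_⟩
      · intro a b hab
        have hab' : SameCycle g b a := (orbitRel_zpowers_iff g a b).mp hab
        obtain ⟨n, hn⟩ := hab'.exists_nat_pow_eq
        rw [← hn, hf']
      · ext x
        rfl
  rw [← hrange, LinearMap.finrank_range_of_inj hΨinj, Module.finrank_fintype_fun_eq_card,
    Nat.card_eq_fintype_card]

omit [DecidableEq X] in
theorem finrank_range_opR (g : Perm X) :
    finrank k ↥(LinearMap.range (opR k g)) + Nat.card (OrbQ g) = Fintype.card X := by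
  have := LinearMap.finrank_range_add_finrank_ker (opR k g)
  rw [finrank_ker_opR, Module.finrank_fintype_fun_eq_card] at this
  exact this

end PermScott

section ScottPerm

variable {X : Type*} [Fintype X] [DecidableEq X]

/-- permutations fixing a function -/
def fixSub {k : Type*} (f : X → k) : Subgroup (Perm X) where
  carrier := {g | ∀ x, f (g x) = f x}
  mul_mem' := fun {a b} ha hb x => by rw [Perm.mul_apply, ha, hb]
  one_mem' := fun x => rfl
  inv_mem' := fun {a} ha x => by
    have := ha (a⁻¹ x)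
    rw [show a (a⁻¹ x) = x from (eq_symm_apply a).mp rfl] at this
    exact this.symm

/-- permutations `g` with `e_{g y} - e_y ∈ U` for all `y` -/
def coinvSub {k : Type*} [Field k] (U : Submodule k (X → k)) : Subgroup (Perm X) where
  carrier := {g | ∀ y, (Pi.single (g y) (1 : k) - Pi.single y 1 : X → k) ∈ U}
  mul_mem' := fun {a b} ha hb y => by
    have h1 := ha (b y)
    have h2 := hb y
    have : (Pi.single ((a * b) y) (1 : k) - Pi.single y 1 : X → k)
        = (Pi.single (a (b y)) (1 : k) - Pi.single (b y) 1) + (Pi.single (b y) 1 - Pi.single y 1) := by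
      rw [Perm.mul_apply]; abel
    rw [this]
    exact U.add_mem h1 h2
  one_mem' := fun y => by simp
  inv_mem' := fun {a} ha y => by
    have h1 := ha (a⁻¹ y)
    rw [show a (a⁻¹ y) = y from (eq_symm_apply a).mp rfl] at h1
    have : (Pi.single (a⁻¹ y) (1 : k) - Pi.single y 1 : X → k)
        = -(Pi.single y (1 : k) - Pi.single (a⁻¹ y) 1) := by abel
    rw [this]
    exact U.neg_mem h1

omit [Fintype X] in
theorem single_sub_single_mem_range_opR (k : Type*) [Field k] (g : Perm X) (y : X) :
    (Pi.single (g y) (1 : k) - Pi.single y 1 : X → k) ∈ LinearMap.range (opR k g) := by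
  refine ⟨Pi.single (g y) 1, ?_⟩
  rw [opR_apply]
  congr 1
  ext x
  rw [opA_apply]
  by_cases hx : x = y
  · subst hx; simp
  · rw [Pi.single_eq_of_ne hx, Pi.single_eq_of_ne]
    exact fun h => hx (g.injective h)

/-- **Scott's lemma / Ree's theorem** for three permutations with product one generating a
transitive group: the total number of cycles is at most `n + 2`. -/
theorem scott_perm [Nonempty X] (g₁ g₂ g₃ : Perm X) (h : g₁ * g₂ * g₃ = 1)
    (htrans : ∀ x y : X, ∃ g ∈ Subgroup.closure ({g₁, g₂, g₃} : Set (Perm X)), g x = y) :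
    Nat.card (OrbQ g₁) + Nat.card (OrbQ g₂) + Nat.card (OrbQ g₃) ≤ Fintype.card X + 2 := by
  classical
  have key := scott_core (k := ℚ) (opA ℚ g₃) (opA ℚ g₂) (opA ℚ g₁) (opR ℚ g₃) (opR ℚ g₂) (opR ℚ g₁)
    (fun v => by
      ext x
      simp only [opA_apply]
      have := congrArg (fun p : Perm X => p x) h
      simp only [Perm.mul_apply, Perm.one_apply] at this
      rw [this])
    (fun v => opR_apply ℚ g₃ v) (fun v => opR_apply ℚ g₂ v) (fun v => opR_apply ℚ g₁ v)
  set U : Submodule ℚ (X → ℚ) :=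
    LinearMap.range (opR ℚ g₃) ⊔ LinearMap.range (opR ℚ g₂) ⊔ LinearMap.range (opR ℚ g₁) with hU
  set K : Submodule ℚ (X → ℚ) :=
    LinearMap.ker (opR ℚ g₃) ⊓ LinearMap.ker (opR ℚ g₂) ⊓ LinearMap.ker (opR ℚ g₁) with hK
  -- the common fixed space consists of constants
  have hKle : K ≤ Submodule.span ℚ {(fun _ => 1 : X → ℚ)} := by
    intro f hf
    rw [hK, Submodule.mem_inf, Submodule.mem_inf, mem_ker_opR, mem_ker_opR, mem_ker_opR] at hf
    have hcl : Subgroup.closure ({g₁, g₂, g₃} : Set (Perm X)) ≤ fixSub f := by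
      rw [Subgroup.closure_le]
      rintro g (rfl | rfl | rfl)
      · exact hf.2
      · exact hf.1.2
      · exact hf.1.1
    obtain ⟨x₀⟩ := ‹Nonempty X›
    rw [Submodule.mem_span_singleton]
    refine ⟨f x₀, ?_⟩
    ext y
    obtain ⟨g, hg, hgy⟩ := htrans x₀ y
    have := hcl hg x₀
    rw [hgy] at this
    simp [this]
  have hKdim : finrank ℚ ↥K ≤ 1 := by
    refine (Submodule.finrank_mono hKle).trans ?_
    exact (finrank_span_le_card _).trans (by simp)
  -- the coinvariants are at most one-dimensional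
  obtain ⟨x₀⟩ := ‹Nonempty X›
  have hcl : Subgroup.closure ({g₁, g₂, g₃} : Set (Perm X)) ≤ coinvSub U := by
    rw [Subgroup.closure_le]
    rintro g (rfl | rfl | rfl)
    · intro y
      exact (le_sup_right : _ ≤ U) (single_sub_single_mem_range_opR ℚ g y)
    · intro y
      exact (le_sup_of_le_left le_sup_right : _ ≤ U) (single_sub_single_mem_range_opR ℚ g y)
    · intro y
      exact (le_sup_of_le_left le_sup_left : _ ≤ U) (single_sub_single_mem_range_opR ℚ g y)
  have htop : (⊤ : Submodule ℚ (X → ℚ)) ≤ Submodule.span ℚ {(Pi.single x₀ 1 : X → ℚ)} ⊔ U := by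
    intro f _
    have hsingle : ∀ y, (Pi.single y (1 : ℚ) : X → ℚ) ∈
        Submodule.span ℚ {(Pi.single x₀ 1 : X → ℚ)} ⊔ U := by
      intro y
      obtain ⟨g, hg, hgy⟩ := htrans x₀ y
      have h1 := hcl hg x₀
      rw [hgy] at h1
      have : (Pi.single y (1 : ℚ) : X → ℚ) = Pi.single x₀ 1 + (Pi.single y 1 - Pi.single x₀ 1) := by
        abel
      rw [this]
      exact Submodule.add_mem_sup (Submodule.mem_span_singleton_self _) h1
    have hf : f = ∑ y, f y • (Pi.single y (1 : ℚ) : X → ℚ) := by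
      ext x
      simp [Finset.sum_apply, Pi.single_apply]
    rw [hf]
    exact Submodule.sum_mem _ fun y _ => Submodule.smul_mem _ _ (hsingle y)
  have hUdim : Fintype.card X ≤ 1 + finrank ℚ ↥U := by
    have h1 := Submodule.finrank_mono htop
    rw [finrank_top, Module.finrank_fintype_fun_eq_card] at h1
    have h2 := Submodule.finrank_add_le_finrank_add_finrank
      (Submodule.span ℚ {(Pi.single x₀ 1 : X → ℚ)}) U
    have h3 : finrank ℚ ↥(Submodule.span ℚ {(Pi.single x₀ 1 : X → ℚ)}) ≤ 1 :=
      (finrank_span_le_card _).trans (by simp)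
    omega
  have r1 := finrank_range_opR ℚ g₁
  have r2 := finrank_range_opR ℚ g₂
  have r3 := finrank_range_opR ℚ g₃
  rw [Module.finrank_fintype_fun_eq_card] at key
  omega

end ScottPerm

section Main

variable {X : Type*} [Fintype X] [DecidableEq X]

/-- the sign of a permutation in terms of its number of orbits -/
theorem sign_eq_neg_one_pow (σ : Perm X) :
    Perm.sign σ = (-1 : ℤˣ) ^ (Fintype.card X + Nat.card (OrbQ σ)) := by
  have h := card_orbQ σ
  have h2 : σ.cycleType.sum ≤ Fintype.card X := sum_cycleType_le σ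
  rw [sign_of_cycleType, Int.units_pow_eq_pow_mod_two,
    Int.units_pow_eq_pow_mod_two (-1) (Fintype.card X + _)]
  congr 1
  omega

omit [Fintype X] [DecidableEq X] in
theorem card_orbQ_inv (σ : Perm X) : Nat.card (OrbQ σ⁻¹) = Nat.card (OrbQ σ) := by
  have : (orbitRel (Subgroup.zpowers σ⁻¹) X) = (orbitRel (Subgroup.zpowers σ) X) := by
    ext a b
    show (orbitRel (Subgroup.zpowers σ⁻¹) X) a b ↔ (orbitRel (Subgroup.zpowers σ) X) a b
    rw [orbitRel_zpowers_iff, orbitRel_zpowers_iff]
    exact sameCycle_inv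
  show Nat.card (Quotient (orbitRel (Subgroup.zpowers σ⁻¹) X))
    = Nat.card (Quotient (orbitRel (Subgroup.zpowers σ) X))
  rw [this]

/-- **Riemann–Hurwitz bookkeeping for permutations**: if `σ, τ` generate a transitive group on a
nonempty finite set with `n` elements, then the total number of cycles of `σ`, `τ`, `σ τ`
is `n + 2 - 2 g` for a natural number `g`. -/
theorem exists_genus_perm [Nonempty X] (σ τ : Perm X)
    (htrans : ∀ x y : X, ∃ g ∈ Subgroup.closure ({σ, τ} : Set (Perm X)), g x = y) :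
    ∃ g : ℕ, Nat.card (OrbQ σ) + Nat.card (OrbQ (σ * τ)) + Nat.card (OrbQ τ) + 2 * g
      = Fintype.card X + 2 := by
  have hscott := scott_perm σ τ (σ * τ)⁻¹ (by group) (fun x y => by
    obtain ⟨g, hg, hgy⟩ := htrans x y
    refine ⟨g, ?_, hgy⟩
    refine Subgroup.closure_mono ?_ hg
    intro a ha
    rcases ha with rfl | rfl
    · exact Or.inl rfl
    · exact Or.inr (Or.inl rfl))
  rw [card_orbQ_inv] at hscott
  have hsign : Perm.sign (σ * τ) = Perm.sign σ * Perm.sign τ := Perm.sign_mul σ τ
  rw [sign_eq_neg_one_pow, sign_eq_neg_one_pow, sign_eq_neg_one_pow, ← pow_add] at hsign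
  have hpar : (Fintype.card X + Nat.card (OrbQ (σ * τ))) % 2
      = (Fintype.card X + Nat.card (OrbQ σ) + (Fintype.card X + Nat.card (OrbQ τ))) % 2 := by
    rw [Int.units_pow_eq_pow_mod_two, Int.units_pow_eq_pow_mod_two (-1) (_ + _ + _)] at hsign
    rcases Nat.mod_two_eq_zero_or_one (Fintype.card X + Nat.card (OrbQ (σ * τ))) with h1 | h1 <;>
    rcases Nat.mod_two_eq_zero_or_one
      (Fintype.card X + Nat.card (OrbQ σ) + (Fintype.card X + Nat.card (OrbQ τ))) with h2 | h2
    · rw [h1, h2]
    · rw [h1, h2] at hsign; simp at hsign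
    · rw [h1, h2] at hsign; simp at hsign
    · rw [h1, h2]
  refine ⟨(Fintype.card X + 2 - (Nat.card (OrbQ σ) + Nat.card (OrbQ (σ * τ)) + Nat.card (OrbQ τ))) / 2,
    ?_⟩
  omega

/-- cycle type of an element of prime order dividing `p` -/
theorem cycleType_sum_of_pow_prime (σ : Perm X) {p : ℕ} (hp : p.Prime) (h : σ ^ p = 1) :
    σ.cycleType.sum = Multiset.card σ.cycleType * p := by
  have hall : ∀ c ∈ σ.cycleType, c = p := by
    intro c hc
    have h1 : c ∣ p := (dvd_of_mem_cycleType hc).trans (orderOf_dvd_of_pow_eq_one h)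
    have h2 : 2 ≤ c := two_le_of_mem_cycleType hc
    rcases (Nat.dvd_prime hp).mp h1 with h3 | h3
    · omega
    · exact h3
  rw [Multiset.eq_replicate_card.mpr hall, Multiset.sum_replicate, Multiset.card_replicate,
    smul_eq_mul]

/-- orbit count of a permutation with `σ ^ p = 1`, `p` prime: `p * #orbits = n + (p-1) * #fixed`. -/
theorem card_orbQ_of_pow_prime (σ : Perm X) {p : ℕ} (hp : p.Prime) (h : σ ^ p = 1) :
    p * Nat.card (OrbQ σ) = Fintype.card X + (p - 1) * Fintype.card (Function.fixedPoints σ) := by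
  have h1 := card_orbQ σ
  have h2 := cycleType_sum_of_pow_prime σ hp h
  have h3 := card_fixedPoints σ
  have h4 : σ.cycleType.sum ≤ Fintype.card X := sum_cycleType_le σ
  obtain ⟨q, rfl⟩ : ∃ q, p = q + 1 := ⟨p - 1, by have := hp.pos; omega⟩
  simp only [Nat.add_sub_cancel]
  rw [h3]
  set c := Multiset.card σ.cycleType
  set n := Fintype.card X
  set o := Nat.card (OrbQ σ)
  rw [h2] at h1 h4 ⊢
  -- o + c (q+1) = n + c ; fix = n - c (q+1)
  have ho : o + c * q = n := by nlinarith
  have : (q + 1) * o + q * (c * (q + 1)) = n + q * n := by nlinarith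
  have hsub : q * (n - c * (q + 1)) = q * n - q * (c * (q + 1)) := Nat.mul_sub q n _
  have hle : q * (c * (q + 1)) ≤ q * n := Nat.mul_le_mul_left q h4
  omega

end Main

section Action

variable {G X : Type*} [Group G] [MulAction G X]

theorem orbitRel_zpowers_toPerm (s : G) :
    orbitRel (Subgroup.zpowers (MulAction.toPerm s : Perm X)) X
      = orbitRel (Subgroup.zpowers s) X := by
  ext a b
  show (orbitRel (Subgroup.zpowers (MulAction.toPerm s : Perm X)) X) a b
    ↔ (orbitRel (Subgroup.zpowers s) X) a b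
  rw [orbitRel_zpowers_iff, orbitRel_apply, mem_orbit_iff]
  constructor
  · rintro ⟨i, hi⟩
    refine ⟨⟨s ^ i, Subgroup.zpow_mem_zpowers s i⟩, ?_⟩
    rw [← hi]
    have : (MulAction.toPerm s : Perm X) ^ i = MulAction.toPerm (s ^ i) :=
      (map_zpow (MulAction.toPermHom G X) s i).symm
    rw [this]
    rfl
  · rintro ⟨⟨g, hg⟩, rfl⟩
    obtain ⟨i, rfl⟩ := Subgroup.mem_zpowers_iff.mp hg
    refine ⟨i, ?_⟩
    have : (MulAction.toPerm s : Perm X) ^ i = MulAction.toPerm (s ^ i) :=
      (map_zpow (MulAction.toPermHom G X) s i).symm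
    rw [this]
    rfl

theorem card_orbQ_toPerm (s : G) :
    Nat.card (OrbQ (MulAction.toPerm s : Perm X))
      = Nat.card (orbitRel.Quotient (Subgroup.zpowers s) X) := by
  show Nat.card (Quotient (orbitRel (Subgroup.zpowers (MulAction.toPerm s : Perm X)) X))
    = Nat.card (Quotient (orbitRel (Subgroup.zpowers s) X))
  rw [orbitRel_zpowers_toPerm]

variable [Fintype X]

theorem card_fixedPoints_toPerm [DecidableEq X] (s : G) :
    Fintype.card (Function.fixedPoints (MulAction.toPerm s : Perm X))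
      = Nat.card (MulAction.fixedBy X s) := by
  rw [← Nat.card_eq_fintype_card]
  rfl

/-- **Main theorem, group-action form.** Let `G = ⟨s, t⟩` act transitively on a nonempty finite
set `X` of size `n`, with `s` acting as an involution and `s t` acting with order dividing `3`.
Then `1 + n/12 - ν₂/4 - ν₃/3 - c/2` is a natural number, where `ν₂, ν₃` are the numbers of fixed
points of `s`, `s t` and `c` is the number of `⟨t⟩`-orbits. -/
theorem exists_genus_of_action [Nonempty X] [IsPretransitive G X] (s t : G)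
    (hgen : Subgroup.closure ({s, t} : Set G) = ⊤)
    (hs : ∀ x : X, s • s • x = x) (hst : ∀ x : X, (s * t) • (s * t) • (s * t) • x = x) :
    ∃ g : ℕ, (g : ℚ) = 1 + (Fintype.card X : ℚ) / 12 - (Nat.card (MulAction.fixedBy X s) : ℚ) / 4
      - (Nat.card (MulAction.fixedBy X (s * t)) : ℚ) / 3
      - (Nat.card (orbitRel.Quotient (Subgroup.zpowers t) X) : ℚ) / 2 := by
  classical
  set σ : Perm X := MulAction.toPerm s with hσ
  set τ : Perm X := MulAction.toPerm t with hτ
  have hστ : σ * τ = MulAction.toPerm (s * t) := (map_mul (MulAction.toPermHom G X) s t).symm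
  have htrans : ∀ x y : X, ∃ g ∈ Subgroup.closure ({σ, τ} : Set (Perm X)), g x = y := by
    intro x y
    obtain ⟨g, rfl⟩ := MulAction.exists_smul_eq G x y
    refine ⟨MulAction.toPermHom G X g, ?_, rfl⟩
    have hg : g ∈ Subgroup.closure ({s, t} : Set G) := by rw [hgen]; trivial
    have := Subgroup.mem_map_of_mem (MulAction.toPermHom G X) hg
    rw [MonoidHom.map_closure] at this
    convert this using 2
    ext a
    simp only [Set.mem_insert_iff, Set.mem_singleton_iff, Set.image_insert_eq, Set.image_singleton]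
    rfl
  obtain ⟨g, hg⟩ := exists_genus_perm σ τ htrans
  have h2 : σ ^ 2 = 1 := by
    ext x
    simp only [pow_two, Perm.mul_apply, Perm.one_apply, hσ, MulAction.toPerm_apply]
    exact hs x
  have h3 : (σ * τ) ^ 3 = 1 := by
    rw [hστ]
    ext x
    simp only [pow_succ, pow_zero, one_mul, Perm.mul_apply, Perm.one_apply,
      MulAction.toPerm_apply]
    exact hst x
  have e2 := card_orbQ_of_pow_prime σ Nat.prime_two h2
  have e3 := card_orbQ_of_pow_prime (σ * τ) Nat.prime_three h3
  rw [hστ] at e3 hg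
  rw [card_fixedPoints_toPerm, card_orbQ_toPerm] at e2 e3
  rw [card_orbQ_toPerm, card_orbQ_toPerm, card_orbQ_toPerm] at hg
  refine ⟨g, ?_⟩
  have e2' : (2 : ℚ) * (Nat.card (orbitRel.Quotient (Subgroup.zpowers s) X) : ℚ)
      = (Fintype.card X : ℚ) + (Nat.card (MulAction.fixedBy X s) : ℚ) := by
    have := congrArg (Nat.cast : ℕ → ℚ) e2
    push_cast at this
    linarith
  have e3' : (3 : ℚ) * (Nat.card (orbitRel.Quotient (Subgroup.zpowers (s * t)) X) : ℚ)
      = (Fintype.card X : ℚ) + 2 * (Nat.card (MulAction.fixedBy X (s * t)) : ℚ) := by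
    have := congrArg (Nat.cast : ℕ → ℚ) e3
    push_cast at this
    linarith
  have hg' : (Nat.card (orbitRel.Quotient (Subgroup.zpowers s) X) : ℚ)
      + (Nat.card (orbitRel.Quotient (Subgroup.zpowers (s * t)) X) : ℚ)
      + (Nat.card (orbitRel.Quotient (Subgroup.zpowers t) X) : ℚ) + 2 * (g : ℚ)
      = (Fintype.card X : ℚ) + 2 := by
    have := congrArg (Nat.cast : ℕ → ℚ) hg
    push_cast at this
    linarith
  linarith

/-- **Prelude shape**: `ModularCurve.genusFormula N` is a natural number, given the four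
combinatorial identities for an action of `G = ⟨s, t⟩` (e.g. `SL(2,ℤ)` on `SL(2,ℤ) ⧸ Γ₀(N)`,
`s = S`, `t = T`). -/
theorem exists_nat_eq_genusFormula [Nonempty X] [IsPretransitive G X] (s t : G)
    (hgen : Subgroup.closure ({s, t} : Set G) = ⊤)
    (hs : ∀ x : X, s • s • x = x) (hst : ∀ x : X, (s * t) • (s * t) • (s * t) • x = x)
    (N : ℕ) (h0 : Nat.card X = ModularCurve.dedekindPsi N)
    (h2 : Nat.card (MulAction.fixedBy X s) = ModularCurve.nuTwo N)
    (h3 : Nat.card (MulAction.fixedBy X (s * t)) = ModularCurve.nuThree N)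
    (hinf : Nat.card (orbitRel.Quotient (Subgroup.zpowers t) X) = ModularCurve.cuspCount N) :
    ∃ g : ℕ, (g : ℚ) = ModularCurve.genusFormula N := by
  obtain ⟨g, hg⟩ := exists_genus_of_action s t hgen hs hst
  refine ⟨g, ?_⟩
  rw [hg, ModularCurve.genusFormula, ← h0, ← h2, ← h3, ← hinf, Nat.card_eq_fintype_card (α := X)]

end Action

end Fermat.Agent.S24_helper88
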